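import Mathlib
import Fermat.Agent.S18.H138.ChartsConst

/-!
# A2 / ALG_ss (helper193), part 1: minimal polynomials over relatively closed subalgebras

Everything lives inside one field `Ω`; `K` is a subfield, `A`, `O` are `R`-subalgebras of `Ω`
contained in `K`, with fraction field `K`, integrally closed in `K` (elementwise hypotheses).

* `minpoly_coeff_mem_of_closed` : the coefficients of `minpoly K y` lie in `A` if `y` is integral
  over `A`.
* `isIntegral_of_mul_of_qep` (**QEP lift**): if `A ≤ O`, `W ∈ A`, and `A ∩ W·O = W·A`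
  (`a ∈ O`, `W a ∈ A` imply `a ∈ A`), then the same holds for the integral closures in `Ω`:
  `t` integral over `O` and `W t` integral over `A` imply `t` integral over `A`.
  (No primality of `W` is used: the special fibre may be reducible.)
-/

set_option autoImplicit false
set_option linter.style.haveILetI false

namespace Fermat.Agent.A2.H193

open Polynomial

variable {R : Type*} [CommRing R] {Ω : Type*} [Field Ω] [Algebra R Ω]

/-- Coefficients of the minimal polynomial over `K` of an element integral over `A` lie in `A`,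
if `A ⊆ K` has fraction field `K` and is integrally closed in `K`. -/
theorem minpoly_coeff_mem_of_closed (A : Subalgebra R Ω) (K : Subfield Ω)
    (hAK : ∀ a ∈ A, a ∈ K) (hfrac : ∀ y ∈ K, ∃ a ∈ A, ∃ b ∈ A, y = a / b)
    (hcl : ∀ y ∈ K, IsIntegral A y → y ∈ A)
    {y : Ω} (hy : IsIntegral A y) (n : ℕ) :
    (((minpoly K y).coeff n : K) : Ω) ∈ A := by
  let φ : A →+* K :=
    { toFun := fun a => ⟨a, hAK a a.2⟩
      map_one' := rfl
      map_mul' := fun _ _ => rfl
      map_zero' := rfl
      map_add' := fun _ _ => rfl }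
  letI : Algebra A K := φ.toAlgebra
  haveI : IsScalarTower A K Ω := IsScalarTower.of_algebraMap_eq (fun _ => rfl)
  have hinj : Function.Injective (algebraMap A K) := by
    intro a b hab
    have : (a : Ω) = b := congrArg (fun t : K => (t : Ω)) hab
    exact Subtype.ext this
  haveI : FaithfulSMul A K := (faithfulSMul_iff_algebraMap_injective A K).2 hinj
  haveI : IsFractionRing A K := by
    refine IsFractionRing.of_field A K (fun z => ?_)
    obtain ⟨a, ha, b, hb, h⟩ := hfrac z z.2
    exact ⟨⟨a, ha⟩, ⟨b, hb⟩, Subtype.ext h⟩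
  haveI : IsIntegrallyClosed A := by
    rw [isIntegrallyClosed_iff K]
    intro x hx
    have hx' : IsIntegral A (x : Ω) := by
      exact hx.map (IsScalarTower.toAlgHom A K Ω)
    exact ⟨⟨x, hcl x x.2 hx'⟩, Subtype.ext rfl⟩
  exact Fermat.Agent.S18.H138.minpoly_coeff_mem A K hAK hfrac hy n

/-- Integrality over `A` implies integrality over a subfield `K ⊇ A`. -/
theorem isIntegral_subfield_of_isIntegral (A : Subalgebra R Ω) (K : Subfield Ω)
    (hAK : ∀ a ∈ A, a ∈ K) {y : Ω} (hy : IsIntegral A y) : IsIntegral K y := by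
  let φ : A →+* K :=
    { toFun := fun a => ⟨a, hAK a a.2⟩
      map_one' := rfl
      map_mul' := fun _ _ => rfl
      map_zero' := rfl
      map_add' := fun _ _ => rfl }
  obtain ⟨p, hp, hpy⟩ := hy
  refine ⟨p.map φ, hp.map φ, ?_⟩
  rw [eval₂_map]
  exact hpy

/-- Iterating the `q`-expansion principle `A ∩ W·O = W·A`. -/
theorem mem_of_mul_pow_mem (A O : Subalgebra R Ω) (hAO : A ≤ O) (W : Ω) (hWA : W ∈ A)
    (hqep : ∀ a ∈ O, W * a ∈ A → a ∈ A) (k : ℕ) :
    ∀ c ∈ O, c * W ^ k ∈ A → c ∈ A := by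
  induction k with
  | zero => intro c _ h; simpa using h
  | succ k ih =>
    intro c hc h
    refine ih c hc (hqep _ (O.mul_mem hc (O.pow_mem (hAO hWA) k)) ?_)
    have : W * (c * W ^ k) = c * W ^ (k + 1) := by ring
    rw [this]; exact h

/-- **QEP lift.**  Let `A ≤ O` be subalgebras of `K` with fraction field `K`, integrally closed in
`K`, and `W ∈ A` nonzero with `A ∩ W·O = W·A`.  If `t ∈ Ω` is integral over `O` and `W t` is
integral over `A`, then `t` is integral over `A`. -/
theorem isIntegral_of_mul_of_qep (A O : Subalgebra R Ω) (K : Subfield Ω)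
    (hAO : A ≤ O) (hOK : ∀ a ∈ O, a ∈ K)
    (hAfrac : ∀ y ∈ K, ∃ a ∈ A, ∃ b ∈ A, y = a / b)
    (hAcl : ∀ y ∈ K, IsIntegral A y → y ∈ A)
    (hOcl : ∀ y ∈ K, IsIntegral O y → y ∈ O)
    (W : Ω) (hWA : W ∈ A) (hW0 : W ≠ 0)
    (hqep : ∀ a ∈ O, W * a ∈ A → a ∈ A)
    {t : Ω} (ht : IsIntegral O t) (hWt : IsIntegral A (W * t)) : IsIntegral A t := by
  have hAK : ∀ a ∈ A, a ∈ K := fun a ha => hOK a (hAO ha)
  have hOfrac : ∀ y ∈ K, ∃ a ∈ O, ∃ b ∈ O, y = a / b := by
    intro y hy
    obtain ⟨a, ha, b, hb, h⟩ := hAfrac y hy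
    exact ⟨a, hAO ha, b, hAO hb, h⟩
  have htK : IsIntegral K t := isIntegral_subfield_of_isIntegral O K hOK ht
  have hWK : W ∈ K := hAK W hWA
  set Wk : K := ⟨W, hWK⟩ with hWk
  have hWk0 : Wk ≠ 0 := by
    intro h
    exact hW0 (congrArg (fun t : K => (t : Ω)) h)
  -- coefficients of `minpoly K t` lie in `O`
  have hO : ∀ i, (((minpoly K t).coeff i : K) : Ω) ∈ O := fun i =>
    minpoly_coeff_mem_of_closed O K hOK hOfrac hOcl ht i
  -- coefficients of `minpoly K (W t)`
  have hsm : minpoly K (Wk • t) = (minpoly K t).scaleRoots Wk :=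
    IsIntegrallyClosed.minpoly_smul hWk0 htK
  have hsmul : Wk • t = W * t := by
    rw [Algebra.smul_def]; rfl
  rw [hsmul] at hsm
  have hA' : ∀ i, (((minpoly K (W * t)).coeff i : K) : Ω) ∈ A := fun i =>
    minpoly_coeff_mem_of_closed A K hAK hAfrac hAcl hWt i
  have hA : ∀ i, (((minpoly K t).coeff i : K) : Ω) ∈ A := by
    intro i
    refine mem_of_mul_pow_mem A O hAO W hWA hqep ((minpoly K t).natDegree - i) _ (hO i) ?_
    have h := hA' i
    rw [hsm, coeff_scaleRoots] at h
    simpa using h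
  -- lift the minimal polynomial to `A`
  let φ : A →+* K :=
    { toFun := fun a => ⟨a, hAK a a.2⟩
      map_one' := rfl
      map_mul' := fun _ _ => rfl
      map_zero' := rfl
      map_add' := fun _ _ => rfl }
  have hlift : minpoly K t ∈ lifts φ := by
    rw [lifts_iff_coeff_lifts]
    intro i
    exact ⟨⟨_, hA i⟩, Subtype.ext rfl⟩
  obtain ⟨G, hGmap, -, hGmonic⟩ := lifts_and_natDegree_eq_and_monic hlift (minpoly.monic htK)
  refine ⟨G, hGmonic, ?_⟩
  have h6 : eval₂ (algebraMap K Ω) t (G.map φ) = 0 := by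
    rw [hGmap]; exact minpoly.aeval K t
  rw [eval₂_map] at h6
  exact h6

end Fermat.Agent.A2.H193
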