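import Fermat.Agent.A2.H193.Closed

/-!
# A2 / ALG_ss (helper193), part 2: the two obstructions

`K ⊆ Ω` fields, `z ∈ Ω` with `minpoly K z = X ^ m - C u`, `m ≥ 2`; `O ⊆ K` an `R`-subalgebra with
fraction field `K`, integrally closed in `K`; `W ∈ O` not a unit of `O`, `m⁻¹ ∈ O`,
`u - 1 ∈ W·O`.  Write `O'` for the integral closure of `O` in `Ω`.

* `not_congr_one`      : `z ≢ 1 mod W·O'`      (the coefficient `m / W` of the minimal polynomial
  of `(z - 1) / W` is not in `O`);
* `not_unit_sub_one`   : `z - 1` is not a unit of `O'`   (the constant coefficient of the minimal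
  polynomial of `(z - 1)⁻¹` would be an inverse of `1 - u ∈ W·O`);
* `exists_inv_one_sub` : `1 - W y` is a unit of `O'` for `y ∈ O'`, if `1 + W·O ⊆ O^×`.

No roots of unity and no traces are used.
-/

set_option autoImplicit false
set_option linter.style.haveILetI false

namespace Fermat.Agent.A2.H193

open Polynomial

variable {R : Type*} [CommRing R] {Ω : Type*} [Field Ω] [Algebra R Ω]

/-- `z ≢ 1` modulo `W` times the integral closure of `O`. -/
theorem not_congr_one (O : Subalgebra R Ω) (K : Subfield Ω)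
    (hOK : ∀ a ∈ O, a ∈ K) (hOfrac : ∀ y ∈ K, ∃ a ∈ O, ∃ b ∈ O, y = a / b)
    (hOcl : ∀ y ∈ K, IsIntegral O y → y ∈ O)
    (W : Ω) (hWO : W ∈ O) (hW0 : W ≠ 0) (hWunit : ∀ a ∈ O, W * a ≠ 1)
    (m : ℕ) (hm : 2 ≤ m) (μ : Ω) (hμO : μ ∈ O) (hμ : μ * (m : Ω) = 1)
    (z : Ω) (u : K) (hz : minpoly K z = X ^ m - C u)
    (y : Ω) (hy : IsIntegral O y) (hzy : z = 1 + W * y) : False := by
  have hWK : W ∈ K := hOK W hWO
  set Wk : K := ⟨W, hWK⟩ with hWk
  have hWk0 : Wk ≠ 0 := fun h => hW0 (congrArg (fun t : K => (t : Ω)) h)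
  have hzint : IsIntegral K z := by
    by_contra h
    have h0 := minpoly.eq_zero h
    rw [hz] at h0
    have h1 := congrArg natDegree h0
    rw [natDegree_X_pow_sub_C, natDegree_zero] at h1
    omega
  -- `y = W⁻¹ • (z - 1)`
  have hy' : y = Wk⁻¹ • (z - algebraMap K Ω 1) := by
    rw [Algebra.smul_def, map_one, hzy]
    have : algebraMap K Ω Wk⁻¹ = W⁻¹ := by
      rw [map_inv₀]; rfl
    rw [this]
    field_simp
    ring
  have hz1 : IsIntegral K (z - algebraMap K Ω 1) := hzint.sub isIntegral_algebraMap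
  have hmin : minpoly K y = ((X ^ m - C u).comp (X + C 1)).scaleRoots Wk⁻¹ := by
    rw [hy', IsIntegrallyClosed.minpoly_smul (inv_ne_zero hWk0) hz1, minpoly.sub_algebraMap, hz]
  have hnd : ((X ^ m - C u : K[X]).comp (X + C 1)).natDegree = m := by
    rw [natDegree_comp, natDegree_X_pow_sub_C, natDegree_X_add_C, mul_one]
  have hcoeff : (minpoly K y).coeff (m - 1) = (m : K) * Wk⁻¹ := by
    rw [hmin, coeff_scaleRoots, hnd]
    have h1 : m - (m - 1) = 1 := by omega
    rw [h1, pow_one]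
    congr 1
    rw [sub_comp, C_comp, pow_comp, X_comp, coeff_sub, coeff_X_add_C_pow, coeff_C]
    have h2 : m - 1 ≠ 0 := by omega
    rw [if_neg h2, sub_zero, one_pow, one_mul]
    have h3 : m.choose (m - 1) = m := by
      rw [Nat.choose_symm (by omega : 1 ≤ m), Nat.choose_one_right]
    rw [h3]
  have hmem := minpoly_coeff_mem_of_closed O K hOK hOfrac hOcl hy (m - 1)
  rw [hcoeff] at hmem
  have hmem' : (m : Ω) * W⁻¹ ∈ O := by
    have : (((m : K) * Wk⁻¹ : K) : Ω) = (m : Ω) * W⁻¹ := by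
      push_cast
      rfl
    rwa [this] at hmem
  refine hWunit (μ * ((m : Ω) * W⁻¹)) (O.mul_mem hμO hmem') ?_
  rw [← mul_assoc μ, hμ, one_mul, mul_inv_cancel₀ hW0]

/-- `z - 1` is not a unit of the integral closure of `O`. -/
theorem not_unit_sub_one (O : Subalgebra R Ω) (K : Subfield Ω)
    (hOK : ∀ a ∈ O, a ∈ K) (hOfrac : ∀ y ∈ K, ∃ a ∈ O, ∃ b ∈ O, y = a / b)
    (hOcl : ∀ y ∈ K, IsIntegral O y → y ∈ O)
    (W : Ω) (hWunit : ∀ a ∈ O, W * a ≠ 1)
    (m : ℕ) (hm : 2 ≤ m)
    (z : Ω) (u : K) (hz : minpoly K z = X ^ m - C u)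
    (a : Ω) (haO : a ∈ O) (hu : (u : Ω) - 1 = W * a)
    (v : Ω) (hv : IsIntegral O v) (hvz : v * (z - 1) = 1) : False := by
  have hzint : IsIntegral K z := by
    by_contra h
    have h0 := minpoly.eq_zero h
    rw [hz] at h0
    have h1 := congrArg natDegree h0
    rw [natDegree_X_pow_sub_C, natDegree_zero] at h1
    omega
  have hv0 : v ≠ 0 := by
    rintro rfl
    rw [zero_mul] at hvz
    exact zero_ne_one hvz
  have hz0 : z - 1 ≠ 0 := by
    intro h
    rw [h, mul_zero] at hvz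
    exact zero_ne_one hvz
  have hvinv : v⁻¹ = z - 1 := by
    rw [inv_eq_iff_eq_inv]
    exact eq_inv_of_mul_eq_one_left hvz
  have hzinv : (z - 1)⁻¹ = v := by
    rw [← hvinv, inv_inv]
  have hvK : IsIntegral K v := isIntegral_subfield_of_isIntegral O K hOK hv
  -- the two minimal polynomials
  set q : K[X] := (X ^ m - C u).comp (X + C 1) with hq
  have hqmin : minpoly K (z - algebraMap K Ω 1) = q := by
    rw [minpoly.sub_algebraMap, hz]
  have hz1 : z - algebraMap K Ω 1 = z - 1 := by rw [map_one]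
  rw [hz1] at hqmin
  have hqnd : q.natDegree = m := by
    rw [hq, natDegree_comp, natDegree_X_pow_sub_C, natDegree_X_add_C, mul_one]
  have hqmonic : q.Monic := by
    rw [← hqmin]
    exact minpoly.monic (by rw [← hz1]; exact hzint.sub isIntegral_algebraMap)
  set p : K[X] := minpoly K v with hp
  have hpmonic : p.Monic := minpoly.monic hvK
  -- `q ∣ p.reverse`
  have h1 : q ∣ p.reverse := by
    rw [← hqmin]
    refine minpoly.dvd K (z - 1) ?_
    letI : Invertible v := invertibleOfNonzero hv0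
    have := (eval₂_reverse_eq_zero_iff (algebraMap K Ω) v p).mpr (minpoly.aeval K v)
    rw [invOf_eq_inv, hvinv] at this
    exact this
  -- `p ∣ q.reverse`
  have h2 : p ∣ q.reverse := by
    refine minpoly.dvd K v ?_
    letI : Invertible (z - 1) := invertibleOfNonzero hz0
    have hq0 : eval₂ (algebraMap K Ω) (z - 1) q = 0 := by
      rw [← hqmin]; exact minpoly.aeval K (z - 1)
    have := (eval₂_reverse_eq_zero_iff (algebraMap K Ω) (z - 1) q).mpr hq0
    rw [invOf_eq_inv, hzinv] at this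
    exact this
  have hprev0 : p.reverse ≠ 0 := by
    rw [Ne, reverse_eq_zero]; exact hpmonic.ne_zero
  have hqrev0 : q.reverse ≠ 0 := by
    rw [Ne, reverse_eq_zero]; exact hqmonic.ne_zero
  have d1 : m ≤ p.reverse.natDegree := by
    rw [← hqnd]; exact natDegree_le_of_dvd h1 hprev0
  have d2 : p.natDegree ≤ m := by
    have := natDegree_le_of_dvd h2 hqrev0
    exact this.trans ((reverse_natDegree_le q).trans hqnd.le)
  have d3 : p.reverse.natDegree ≤ q.natDegree := by
    rw [hqnd]; exact (reverse_natDegree_le p).trans d2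
  have hrev : p.reverse = q * C p.reverse.leadingCoeff :=
    eq_mul_leadingCoeff_of_monic_of_dvd_of_natDegree_le hqmonic h1 d3
  -- compare constant coefficients
  have hc := congrArg (fun f : K[X] => f.coeff 0) hrev
  simp only [coeff_zero_reverse, mul_coeff_zero, coeff_C_zero] at hc
  rw [hpmonic.leadingCoeff, reverse_leadingCoeff] at hc
  have hq0 : q.coeff 0 = 1 - u := by
    rw [coeff_zero_eq_eval_zero, hq, eval_comp]
    simp
  rw [hq0] at hc
  -- the trailing coefficient lies in `O`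
  have htr : ((p.trailingCoeff : K) : Ω) ∈ O := by
    rw [trailingCoeff]
    exact minpoly_coeff_mem_of_closed O K hOK hOfrac hOcl hv _
  have hc' : (1 : Ω) = (1 - (u : Ω)) * ((p.trailingCoeff : K) : Ω) := by
    have := congrArg (fun t : K => (t : Ω)) hc
    simpa using this
  refine hWunit (-a * ((p.trailingCoeff : K) : Ω)) (O.mul_mem (O.neg_mem haO) htr) ?_
  rw [hc']
  have : 1 - (u : Ω) = -(W * a) := by rw [← hu]; ring
  rw [this]
  ring

/-- `1 - W y` is a unit of the integral closure of `O`, if `1 + W·O ⊆ O^×`. -/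
theorem exists_inv_one_sub (O : Subalgebra R Ω) (W : Ω) (hWO : W ∈ O)
    (hjac : ∀ a ∈ O, ∃ b ∈ O, (1 + W * a) * b = 1)
    {y : Ω} (hy : IsIntegral O y) : ∃ v, IsIntegral O v ∧ v * (1 - W * y) = 1 := by
  obtain ⟨P, hPm, hP⟩ := hy
  set Wo : O := ⟨W, hWO⟩ with hWo
  set P₁ : (↥O)[X] := P.scaleRoots Wo with hP₁
  have hP₁m : P₁.Monic := (monic_scaleRoots_iff Wo).mpr hPm
  have hP₁y : eval₂ (algebraMap O Ω) (W * y) P₁ = 0 :=
    scaleRoots_eval₂_eq_zero (algebraMap O Ω) (s := Wo) hP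
  set Q : (↥O)[X] := P₁.comp (C 1 - X) with hQ
  set t : Ω := 1 - W * y with ht
  have hQt : eval₂ (algebraMap O Ω) t Q = 0 := by
    rw [hQ, eval₂_comp]
    have : eval₂ (algebraMap O Ω) t (C 1 - X) = W * y := by
      rw [eval₂_sub, eval₂_C, eval₂_X, map_one, ht]; ring
    rw [this]; exact hP₁y
  -- the constant coefficient of `Q`
  have hQ0 : ∃ a : O, Q.coeff 0 = 1 + Wo * a := by
    rw [coeff_zero_eq_eval_zero, hQ, eval_comp]
    have h1 : eval 0 (C 1 - X : (↥O)[X]) = 1 := by simp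
    rw [h1, eval_eq_sum_range, natDegree_scaleRoots, Finset.sum_range_succ]
    refine ⟨∑ i ∈ Finset.range P.natDegree, P.coeff i * Wo ^ (P.natDegree - i - 1), ?_⟩
    rw [Finset.mul_sum, add_comm]
    congr 1
    · rw [hP₁, coeff_scaleRoots, Nat.sub_self, pow_zero, mul_one, one_pow, mul_one]
      exact hPm.coeff_natDegree
    · refine Finset.sum_congr rfl fun i hi => ?_
      rw [Finset.mem_range] at hi
      rw [hP₁, coeff_scaleRoots, one_pow, mul_one]
      obtain ⟨k, hk⟩ : ∃ k, P.natDegree - i = k + 1 := ⟨P.natDegree - i - 1, by omega⟩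
      have hk' : P.natDegree - i - 1 = k := by omega
      rw [hk', hk, pow_succ]
      ring
  obtain ⟨a, ha⟩ := hQ0
  obtain ⟨b, hbO, hb⟩ := hjac a a.2
  set bo : O := ⟨b, hbO⟩ with hbo
  have hcb : Q.coeff 0 * bo = 1 := by
    rw [ha]
    exact Subtype.ext hb
  have hQc0 : Q.coeff 0 ≠ 0 := by
    intro h
    rw [h, zero_mul] at hcb
    exact zero_ne_one hcb
  have ht0 : t ≠ 0 := by
    intro h
    rw [h] at hQt
    have h2 : eval₂ (algebraMap O Ω) 0 Q = algebraMap O Ω (Q.coeff 0) := by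
      rw [eval₂_at_zero]
    rw [h2] at hQt
    have h3 : Q.coeff 0 = 0 := by
      apply Subtype.ext
      simpa using hQt
    exact hQc0 h3
  refine ⟨t⁻¹, ⟨C bo * Q.reverse, ?_, ?_⟩, inv_mul_cancel₀ ht0⟩
  · rw [Monic, leadingCoeff_mul, leadingCoeff_C, reverse_leadingCoeff,
      trailingCoeff_eq_coeff_zero hQc0, mul_comm]
    exact hcb
  · rw [eval₂_mul, eval₂_C]
    letI : Invertible t := invertibleOfNonzero ht0
    have := (eval₂_reverse_eq_zero_iff (algebraMap O Ω) t Q).mpr hQt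
    rw [invOf_eq_inv] at this
    rw [this, mul_zero]

end Fermat.Agent.A2.H193
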