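import Fermat.Agent.A2.H729.Kummer
import Fermat.Agent.A2.H193.Units

/-!
# A2 / ALG_ss (helper193), part 3: from base charts to cover charts

`K ⊆ Ω` fields, `O ⊆ K` the Gauss ring of the base (semi-local ring of the generic points of the
special fibre), `A ⊆ K` a *base chart* (`BaseChart`): the integral closure of `R[S]` in `K`, with
the `q`-expansion principle `A ∩ W·O = W·A`.  The cover charts are `chart R S` (integral closure
of `R[S]` in `Ω`) and the cover Gauss ring is `intCl O` (integral closure of `O` in `Ω`).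

* `qep_cover`  : `chart R S ∩ W·(intCl O) = W·chart R S`  (from the QEP lift of `Closed.lean`);
* `loc_cover`  : a local factorisation `s·u·h^m ∈ A` (`h ≡ 1 mod W·O`, `s ∉ 𝔫`) at the closed
  points of the base chart gives the local hypothesis of `H729.kummer_trivial_of_local` for
  every `y ∈ Ω` with `y ^ m = u`.
-/

set_option autoImplicit false
set_option linter.style.haveILetI false

namespace Fermat.Agent.A2.H193

open Polynomial Fermat.Agent.S18.H138 Fermat.Agent.A2.H729

variable {R : Type*} [CommRing R] {Ω : Type*} [Field Ω] [Algebra R Ω]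

/-- The integral closure of `O` in `Ω`, as an `R`-subalgebra. -/
def intCl (O : Subalgebra R Ω) : Subalgebra R Ω :=
  (integralClosure O Ω).restrictScalars R

theorem mem_intCl {O : Subalgebra R Ω} {y : Ω} : y ∈ intCl O ↔ IsIntegral O y := Iff.rfl

theorem le_intCl (O : Subalgebra R Ω) : O ≤ intCl O := by
  intro y hy
  rw [mem_intCl]
  exact isIntegral_algebraMap (R := O) (x := ⟨y, hy⟩)

/-- An element integral over a chart lies in the chart. -/
theorem mem_chart_of_isIntegral_chart {S : Set Ω} {y : Ω} (hy : IsIntegral (chart R S) y) :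
    y ∈ chart R S := by
  rw [mem_chart]
  have h1 : IsIntegral (integralClosure (Algebra.adjoin R S) Ω) y := hy
  exact isIntegral_trans (R := Algebra.adjoin R S) (A := integralClosure (Algebra.adjoin R S) Ω) y h1

/-- An element integral over `intCl O` lies in `intCl O`. -/
theorem mem_intCl_of_isIntegral_intCl {O : Subalgebra R Ω} {y : Ω}
    (hy : IsIntegral (intCl O) y) : y ∈ intCl O := by
  rw [mem_intCl]
  have h1 : IsIntegral (integralClosure O Ω) y := hy
  exact isIntegral_trans (R := O) (A := integralClosure O Ω) y h1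

/-- `A` is a *base chart* for the coordinate set `S`: the integral closure of `R[S]` in the
base field `K` (`subset`, `le_chart`, `frac`, `closed`), contained in the Gauss ring `O` of the
base, with the `q`-expansion principle `A ∩ W·O = W·A` (the special fibre is reduced, and `O`
sees all its generic points). -/
structure BaseChart (K : Subfield Ω) (O : Subalgebra R Ω) (w : R) (S : Set Ω)
    (A : Subalgebra R Ω) : Prop where
  subset : S ⊆ A
  le_chart : A ≤ chart R S
  le_gauss : A ≤ O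
  frac : ∀ y ∈ K, ∃ a ∈ A, ∃ b ∈ A, y = a / b
  closed : ∀ y ∈ K, IsIntegral A y → y ∈ A
  qep : ∀ a ∈ O, algebraMap R Ω w * a ∈ A → a ∈ A

section BaseChart

variable {K : Subfield Ω} {O : Subalgebra R Ω} {w : R} {S : Set Ω} {A : Subalgebra R Ω}

theorem BaseChart.adjoin_le (hA : BaseChart K O w S A) : Algebra.adjoin R S ≤ A :=
  Algebra.adjoin_le hA.subset

/-- The cover chart is contained in the cover Gauss ring. -/
theorem BaseChart.chart_le_intCl (hA : BaseChart K O w S A) : chart R S ≤ intCl O := by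
  intro y hy
  rw [mem_intCl]
  exact isIntegral_of_le (hA.adjoin_le.trans hA.le_gauss) hy

/-- **QEP for the cover charts**: `chart R S ∩ W·(intCl O) = W·chart R S`. -/
theorem BaseChart.qep_cover (hA : BaseChart K O w S A) (hOK : ∀ a ∈ O, a ∈ K)
    (hOcl : ∀ y ∈ K, IsIntegral O y → y ∈ O) (hW0 : algebraMap R Ω w ≠ 0) :
    ∀ b ∈ chart R S, InW (intCl O) w b → ∃ t ∈ chart R S, b = algebraMap R Ω w * t := by
  rintro b hb ⟨t, ht, rfl⟩
  refine ⟨t, ?_, rfl⟩
  have hWt : IsIntegral A (algebraMap R Ω w * t) := isIntegral_of_le hA.adjoin_le hb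
  have htA : IsIntegral A t :=
    isIntegral_of_mul_of_qep A O K hA.le_gauss hOK hA.frac hA.closed hOcl _
      (A.algebraMap_mem w) hW0 hA.qep ht hWt
  exact mem_chart_of_isIntegral_chart (isIntegral_of_le hA.le_chart htA)

end BaseChart

/-- **Local factorisation** of `u` at the closed points of the special fibre of the base chart
`A`: for every maximal ideal `𝔫 ∋ w` of `A` there are `h ≡ 1 mod W·O` and a denominator `s ∉ 𝔫`
with `s · (u · h ^ m) ∈ A`, i.e. `u = ε · (h⁻¹) ^ m` with `ε` regular at `𝔫`. -/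
def LocFact (O A : Subalgebra R Ω) (w : R) (m : ℕ) (u : Ω) : Prop :=
  ∀ 𝔫 : Ideal A, 𝔫.IsMaximal → algebraMap R A w ∈ 𝔫 →
    ∃ h : Ω, InW O w (h - 1) ∧ ∃ s : A, s ∉ 𝔫 ∧ (s : Ω) * (u * h ^ m) ∈ A

/-- The same with the factorisation written as `s · u = c · h ^ m`, `c ∈ A`. -/
def LocFact' (O A : Subalgebra R Ω) (w : R) (m : ℕ) (u : Ω) : Prop :=
  ∀ 𝔫 : Ideal A, 𝔫.IsMaximal → algebraMap R A w ∈ 𝔫 →
    ∃ h : Ω, InW O w (h - 1) ∧ ∃ s : A, s ∉ 𝔫 ∧ ∃ c ∈ A, (s : Ω) * u = c * h ^ m

/-- If `1 + W·O ⊆ O^×` the two forms of the local factorisation agree. -/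
theorem LocFact.of_locFact' {O A : Subalgebra R Ω} {w : R} {m : ℕ} {u : Ω}
    (hjac : ∀ a ∈ O, ∃ b ∈ O, (1 + algebraMap R Ω w * a) * b = 1)
    (h : LocFact' O A w m u) : LocFact O A w m u := by
  intro 𝔫 h𝔫 hw
  obtain ⟨h, ⟨a, ha, hh⟩, s, hs, c, hc, hsu⟩ := h 𝔫 h𝔫 hw
  obtain ⟨b, hb, hab⟩ := hjac a ha
  have hh' : h = 1 + algebraMap R Ω w * a := by rw [← hh]; ring
  refine ⟨b, ⟨-(a * b), O.neg_mem (O.mul_mem ha hb), ?_⟩, s, hs, ?_⟩
  · have : b - 1 = b - (1 + algebraMap R Ω w * a) * b := by rw [hab]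
    rw [this]; ring
  · have h1 : (s : Ω) * (u * b ^ m) = c * (h * b) ^ m := by
      rw [mul_pow, ← mul_assoc, ← mul_assoc, hsu]
    rw [h1, hh', hab, one_pow, mul_one]
    exact hc

section Loc

variable {K : Subfield Ω} {O : Subalgebra R Ω} {w : R} {S : Set Ω} {A : Subalgebra R Ω}

/-- **Local hypothesis of `H729.kummer_trivial_of_local` from a local factorisation on the
base chart.** -/
theorem BaseChart.loc_cover (hA : BaseChart K O w S A) {m : ℕ} (hm : 0 < m) {u : Ω}
    (hloc : LocFact O A w m u) {y : Ω} (hyu : y ^ m = u) (hyO : y ∈ intCl O) :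
    ∀ 𝔫 : Ideal (chart R S), 𝔫.IsMaximal → algebraMap R (chart R S) w ∈ 𝔫 →
      ∃ s : chart R S, s ∉ 𝔫 ∧
        ∃ y₁ : Ω, InW (intCl O) w (y - y₁) ∧ (s : Ω) * y₁ ∈ chart R S := by
  intro 𝔫' h𝔫' hw'
  let ι : A →ₐ[R] chart R S := Subalgebra.inclusion hA.le_chart
  haveI := h𝔫'.isPrime
  have hp : (𝔫'.comap ι).IsPrime := Ideal.comap_isPrime ι 𝔫'
  obtain ⟨𝔫, h𝔫, hle⟩ := Ideal.exists_le_maximal _ hp.ne_top
  have hw : algebraMap R A w ∈ 𝔫 := by
    apply hle
    rw [Ideal.mem_comap, AlgHom.commutes]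
    exact hw'
  obtain ⟨h, ⟨a, ha, hh⟩, s, hs, hc⟩ := hloc 𝔫 h𝔫 hw
  refine ⟨ι s, fun hmem => hs (hle (Ideal.mem_comap.2 hmem)), y * h, ?_, ?_⟩
  · refine ⟨-(y * a), (intCl O).neg_mem ((intCl O).mul_mem hyO (le_intCl O ha)), ?_⟩
    have hh' : h = 1 + algebraMap R Ω w * a := by rw [← hh]; ring
    rw [hh']; ring
  · apply mem_chart_of_isIntegral_chart
    refine IsIntegral.of_pow hm ?_
    have hsm : (s : Ω) ^ m = (s : Ω) ^ (m - 1) * s := by
      rw [← pow_succ]
      congr 1
      omega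
    have h1 : (((ι s : chart R S) : Ω) * (y * h)) ^ m
        = (s : Ω) ^ (m - 1) * ((s : Ω) * (u * h ^ m)) := by
      have : ((ι s : chart R S) : Ω) = (s : Ω) := rfl
      rw [this, mul_pow, mul_pow, hyu, hsm]
      ring
    rw [h1]
    have hmem : (s : Ω) ^ (m - 1) * ((s : Ω) * (u * h ^ m)) ∈ chart R S :=
      hA.le_chart (A.mul_mem (A.pow_mem s.2 _) hc)
    exact isIntegral_algebraMap (R := chart R S) (x := ⟨_, hmem⟩)

end Loc

end Fermat.Agent.A2.H193
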