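import Fermat.Agent.A2.H193.Closed

/-!
# A2 / ALG_ss (helper193), part 2b: a root of unity-free descent lemma (V-D core)

`K ⊆ Ω` fields, `O ⊆ K` an `R`-subalgebra with fraction field `K`, integrally closed in `K`,
`W ∈ O` a nonzero non-unit, `m` invertible in `O`.

**Theorem** (`mem_of_congr_one`).  If `z ∈ Ω` satisfies `z ^ m ∈ K` and `z ≡ 1` modulo `W` times
the integral closure of `O` in `Ω`, then `z ∈ K`.

Proof: `y = (z - 1) / W` is a root of `L = ((1 + W Y)^m - z^m) / W ∈ O[Y]`, whose reduction modulo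
a maximal ideal `𝔪 ∋ W` of `O` is `m Y - a`, of degree exactly `1`; the minimal polynomial of `y`
is monic with coefficients in `O` and divides `L` in `O[Y]`, hence has degree `1`.
No irreducibility of `X ^ m - u` is assumed.
-/

set_option autoImplicit false
set_option linter.style.haveILetI false

namespace Fermat.Agent.A2.H193

open Polynomial

/-- `(1 + W X) ^ m = 1 + m W X + W² X² G`. -/
theorem exists_one_add_pow_expansion {A : Type*} [CommRing A] (W : A) (m : ℕ) :
    ∃ G : A[X], (1 + C W * X) ^ m = 1 + C (m : A) * C W * X + C W ^ 2 * X ^ 2 * G := by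
  induction m with
  | zero => exact ⟨0, by simp⟩
  | succ m ih =>
    obtain ⟨G, hG⟩ := ih
    refine ⟨C (m : A) + G + C W * X * G, ?_⟩
    rw [pow_succ, hG]
    push_cast
    simp only [map_add, map_one]
    ring

variable {R : Type*} [CommRing R] {Ω : Type*} [Field Ω] [Algebra R Ω]

/-- **V-D core.**  `z ^ m ∈ K` and `z ≡ 1 mod W·O'` imply `z ∈ K`. -/
theorem mem_of_congr_one (O : Subalgebra R Ω) (K : Subfield Ω)
    (hOK : ∀ a ∈ O, a ∈ K) (hOfrac : ∀ y ∈ K, ∃ a ∈ O, ∃ b ∈ O, y = a / b)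
    (hOcl : ∀ y ∈ K, IsIntegral O y → y ∈ O)
    (W : Ω) (hWO : W ∈ O) (hW0 : W ≠ 0) (hWunit : ∀ a ∈ O, W * a ≠ 1)
    (m : ℕ) (μ : Ω) (hμO : μ ∈ O) (hμ : μ * (m : Ω) = 1)
    (z : Ω) (hzK : z ^ m ∈ K)
    (y : Ω) (hy : IsIntegral O y) (hzy : z = 1 + W * y) : z ∈ K := by
  classical
  have hWK : W ∈ K := hOK W hWO
  -- the ring homomorphism `O → K`
  let φ : O →+* K :=
    { toFun := fun a => ⟨a, hOK a a.2⟩
      map_one' := rfl
      map_mul' := fun _ _ => rfl
      map_zero' := rfl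
      map_add' := fun _ _ => rfl }
  have hφinj : Function.Injective φ := by
    intro a b hab
    have : (a : Ω) = b := congrArg (fun t : K => (t : Ω)) hab
    exact Subtype.ext this
  have hφ : ∀ a : O, algebraMap K Ω (φ a) = algebraMap O Ω a := fun _ => rfl
  have hyK : IsIntegral K y := isIntegral_subfield_of_isIntegral O K hOK hy
  -- `a = (z ^ m - 1) / W ∈ O`
  set a : Ω := y * ∑ i ∈ Finset.range m, z ^ i with ha
  have hza : z ^ m - 1 = W * a := by
    rw [ha, ← mul_geom_sum, hzy]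
    ring
  have hzint : IsIntegral O z := by
    rw [hzy]
    exact isIntegral_one.add ((isIntegral_algebraMap (x := (⟨W, hWO⟩ : O))).mul hy)
  have haint : IsIntegral O a := by
    rw [ha]
    exact hy.mul (IsIntegral.sum _ fun i _ => hzint.pow i)
  have haK : a ∈ K := by
    have : a = (z ^ m - 1) * W⁻¹ := by
      rw [hza]; field_simp
    rw [this]
    exact K.mul_mem (K.sub_mem hzK K.one_mem) (K.inv_mem hWK)
  have haO : a ∈ O := hOcl a haK haint
  set W₀ : O := ⟨W, hWO⟩ with hW₀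
  set a₀ : O := ⟨a, haO⟩ with ha₀
  set μ₀ : O := ⟨μ, hμO⟩ with hμ₀
  -- the polynomial `L₀`
  obtain ⟨G, hG⟩ := exists_one_add_pow_expansion W₀ m
  set L₀ : (↥O)[X] := C (m : O) * X - C a₀ + C W₀ * X ^ 2 * G with hL₀
  have hWL : C W₀ * L₀ = (1 + C W₀ * X) ^ m - (1 + C W₀ * C a₀) := by
    rw [hG, hL₀]; ring
  have hLy : aeval y L₀ = 0 := by
    have h1 := congrArg (aeval y) hWL
    simp only [map_mul, map_sub, map_add, map_pow, map_one, aeval_C, aeval_X] at h1
    have h2 : algebraMap (↥O) Ω W₀ = W := rfl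
    have h3 : algebraMap (↥O) Ω a₀ = a := rfl
    rw [h2, h3, ← hzy, ← hza] at h1
    have h4 : W * aeval y L₀ = 0 := by
      rw [h1]; ring
    rcases mul_eq_zero.1 h4 with h | h
    · exact absurd h hW0
    · exact h
  -- the minimal polynomial of `y` lifts to `O`
  have hQO : ∀ i, (((minpoly K y).coeff i : K) : Ω) ∈ O := fun i =>
    minpoly_coeff_mem_of_closed O K hOK hOfrac hOcl hy i
  have hlift : minpoly K y ∈ lifts φ := by
    rw [lifts_iff_coeff_lifts]
    intro i
    exact ⟨⟨_, hQO i⟩, Subtype.ext rfl⟩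
  obtain ⟨Q₀, hQ₀map, hQ₀deg, hQ₀monic⟩ :=
    lifts_and_natDegree_eq_and_monic hlift (minpoly.monic hyK)
  -- `Q₀ ∣ L₀`
  have hdvdK : Q₀.map φ ∣ L₀.map φ := by
    rw [hQ₀map]
    refine minpoly.dvd K y ?_
    rw [aeval_def, eval₂_map]
    exact hLy
  have hdvd : Q₀ ∣ L₀ := (map_dvd_map φ hφinj hQ₀monic).1 hdvdK
  -- a maximal ideal containing `W₀`
  have hspan : Ideal.span ({W₀} : Set O) ≠ ⊤ := by
    rw [Ne, Ideal.span_singleton_eq_top]
    rintro hu
    obtain ⟨b, hb⟩ := hu.exists_right_inv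
    exact hWunit b b.2 (congrArg (fun t : O => (t : Ω)) hb)
  obtain ⟨𝔪, h𝔪, hle⟩ := Ideal.exists_le_maximal _ hspan
  have hW𝔪 : W₀ ∈ 𝔪 := hle (Ideal.subset_span rfl)
  letI : Field (↥O ⧸ 𝔪) := Ideal.Quotient.field 𝔪
  set π : O →+* (↥O ⧸ 𝔪) := Ideal.Quotient.mk 𝔪 with hπ
  have hπW : π W₀ = 0 := Ideal.Quotient.eq_zero_iff_mem.2 hW𝔪
  have hμm : μ₀ * (m : O) = 1 := by
    apply Subtype.ext
    push_cast
    exact hμ
  have hπm : π (m : O) ≠ 0 := by
    intro h
    have := congrArg π hμm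
    rw [map_mul, h, mul_zero, map_one] at this
    exact zero_ne_one this
  have hLmap : L₀.map π = C (π (m : O)) * X + C (-π a₀) := by
    rw [hL₀]
    simp only [Polynomial.map_add, Polynomial.map_sub, Polynomial.map_mul, Polynomial.map_pow,
      map_C, map_X, hπW, map_zero, zero_mul, add_zero, map_neg]
    ring
  have hL0 : L₀.map π ≠ 0 := by
    intro h
    have := congrArg (fun p : (↥O ⧸ 𝔪)[X] => p.coeff 1) h
    rw [hLmap] at this
    simp at this
    exact hπm this
  have hdeg : (Q₀.map π).natDegree ≤ 1 := by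
    have h1 := natDegree_le_of_dvd (Polynomial.map_dvd π hdvd) hL0
    refine h1.trans ?_
    rw [hLmap]
    exact natDegree_linear_le
  rw [hQ₀monic.natDegree_map, hQ₀deg] at hdeg
  have hpos := minpoly.natDegree_pos hyK
  have hone : (minpoly K y).natDegree = 1 := by omega
  obtain ⟨yk, hyk⟩ := minpoly.natDegree_eq_one_iff.1 hone
  have hyKmem : y ∈ K := by
    rw [← hyk]
    exact yk.2
  rw [hzy]
  exact K.add_mem K.one_mem (K.mul_mem hWK hyKmem)

end Fermat.Agent.A2.H193
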