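import Fermat.Agent.A2.H193.Cover
import Fermat.Agent.A2.H193.Root

/-!
# A2 / ALG_ss (helper193): Kummer gluing over a semistable two-chart model — main theorem

Setting (that of `S18.H138.connected_special_fibre` for the cover field `Ω`):
`R` a noetherian domain with `R[X]` integrally closed (a DVR), `w ∈ R` prime, `Ω` a field of
characteristic `0`, `x ∈ Ω` transcendental over `R`, `Ω` finite over `baseField R x`, and `R`
integrally closed in `Ω` (no new constants).

Base data: `K ⊆ Ω` a subfield (the function field of the base curve), `O ⊆ K` the Gauss ring of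
the base (integrally closed in `K`, `w` not a unit of `O`), and the three base charts
`Af, Ai, Am` (`BaseChart`: integral closures of `R[x]`, `R[x⁻¹]`, `R[x, x⁻¹]` in `K`, with
`A ∩ w O = w A`, i.e. the special fibre of the base model is reduced — it may be reducible).

**Theorem** (`kummer_root_mem`).  Let `m` be invertible in `R`, `ζ ∈ R` a primitive `m`-th root
of unity, `u ∈ K` with `u ≡ 1 mod w O`, with a local factorisation (`LocFact`) at every closed
point of the special fibre of `Af` and of `Ai`.  Then every `z ∈ Ω` with `z ^ m = u` lies in `K`.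

No irreducibility of `X ^ m - u` is assumed.  `kummer_root_mem'` is the same statement with the
local factorisation in the form `s · u = c · h ^ m` (needs `1 + w O ⊆ O^×`).
-/

set_option autoImplicit false
set_option linter.style.haveILetI false

namespace Fermat.Agent.A2.H193

open Polynomial Fermat.Agent.S18.H138 Fermat.Agent.A2.H729

variable {R : Type*} [CommRing R] {Ω : Type*} [Field Ω] [Algebra R Ω]

theorem geom_sum_pow_primitive {ζ : Ω} {m : ℕ} (hζ : IsPrimitiveRoot ζ m) {a : ℕ} (ha0 : a ≠ 0)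
    (ham : a < m) : ∑ i ∈ Finset.range m, (ζ ^ a) ^ i = 0 := by
  have h1 : ζ ^ a ≠ 1 := hζ.pow_ne_one_of_pos_of_lt ha0 ham
  have h2 : (ζ ^ a - 1) * ∑ i ∈ Finset.range m, (ζ ^ a) ^ i = 0 := by
    rw [mul_geom_sum, ← pow_mul, mul_comm, pow_mul, hζ.pow_eq_one, one_pow, sub_self]
  rcases mul_eq_zero.1 h2 with h | h
  · exact absurd (sub_eq_zero.1 h) h1
  · exact h

/-- The Kummer idempotents of the twists `ζ ^ i · z` form a partition of unity. -/
theorem sum_kummerIdem_twist {mi : R} {m : ℕ} (hmi : (m : R) * mi = 1) {ζ : Ω}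
    (hζ : IsPrimitiveRoot ζ m) (z : Ω) :
    ∑ i ∈ Finset.range m, kummerIdem mi m (ζ ^ i * z) = 1 := by
  have hmiF : algebraMap R Ω mi * (m : Ω) = 1 := by
    have := congrArg (algebraMap R Ω) hmi
    rw [mul_comm]
    simpa using this
  have hm0 : m ≠ 0 := by
    rintro rfl
    simp at hmiF
  simp only [kummerIdem]
  rw [← Finset.mul_sum, Finset.sum_comm]
  have h1 : ∀ a ∈ Finset.range m, ∑ i ∈ Finset.range m, (ζ ^ i * z) ^ a
      = z ^ a * ∑ i ∈ Finset.range m, (ζ ^ a) ^ i := by
    intro a _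
    rw [Finset.mul_sum]
    refine Finset.sum_congr rfl fun i _ => ?_
    rw [mul_pow, ← pow_mul, ← pow_mul, mul_comm i a]
    ring
  rw [Finset.sum_congr rfl h1]
  rw [Finset.sum_eq_single 0]
  · simp only [pow_zero, one_pow, Finset.sum_const, Finset.card_range, nsmul_eq_mul, mul_one,
      one_mul]
    exact hmiF
  · intro a ha ha0
    rw [geom_sum_pow_primitive hζ ha0 (Finset.mem_range.1 ha), mul_zero]
  · intro h
    exact absurd (Finset.mem_range.2 (Nat.pos_of_ne_zero hm0)) h

section Main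

variable [IsNoetherianRing R] [IsIntegrallyClosed R[X]] [CharZero Ω]

/-- **ALG_ss (Kummer gluing over a semistable two-chart model).** -/
theorem kummer_root_mem
    (hinjR : Function.Injective (algebraMap R Ω))
    (hRF : ∀ y : Ω, IsIntegral R y → y ∈ Set.range (algebraMap R Ω))
    {x : Ω} (hx : Transcendental R x) [FiniteDimensional (baseField R x) Ω]
    (w : R) (hw : Prime w)
    (K : Subfield Ω) (O : Subalgebra R Ω)
    (hOK : ∀ a ∈ O, a ∈ K) (hOcl : ∀ y ∈ K, IsIntegral O y → y ∈ O)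
    (hWunit : ∀ a ∈ O, algebraMap R Ω w * a ≠ 1)
    (Af Ai Am : Subalgebra R Ω)
    (hAf : BaseChart K O w {x} Af) (hAi : BaseChart K O w {x⁻¹} Ai)
    (hAm : BaseChart K O w {x, x⁻¹} Am)
    {m : ℕ} (hm : 0 < m) {mi : R} (hmi : (m : R) * mi = 1)
    {ζ : R} (hζ : IsPrimitiveRoot ζ m)
    {u : Ω} (huK : u ∈ K) (hu1 : InW O w (u - 1))
    (hloc_f : LocFact O Af w m u) (hloc_i : LocFact O Ai w m u)
    {z : Ω} (hzu : z ^ m = u) : z ∈ K := by
  classical
  set W : Ω := algebraMap R Ω w with hW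
  have hW0 : W ≠ 0 := by
    intro h
    exact hw.ne_zero (hinjR (by rw [← hW, h, map_zero]))
  have hRK : ∀ r : R, algebraMap R Ω r ∈ K := fun r => hOK _ (O.algebraMap_mem r)
  have hOfrac : ∀ y ∈ K, ∃ a ∈ O, ∃ b ∈ O, y = a / b := fun y hy => by
    obtain ⟨a, ha, b, hb, h⟩ := hAf.frac y hy
    exact ⟨a, hAf.le_gauss ha, b, hAf.le_gauss hb, h⟩
  have huO : u ∈ O := by
    obtain ⟨t, ht, h⟩ := hu1
    have : u = 1 + W * t := by rw [hW, ← h]; ring
    rw [this]
    exact O.add_mem O.one_mem (O.mul_mem (O.algebraMap_mem w) ht)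
  set ζ' : Ω := algebraMap R Ω ζ with hζ'def
  have hζ' : IsPrimitiveRoot ζ' m := hζ.map_of_injective hinjR
  have hzO : z ∈ intCl O := by
    rw [mem_intCl]
    refine IsIntegral.of_pow hm ?_
    rw [hzu]
    exact isIntegral_algebraMap (R := O) (x := ⟨u, huO⟩)
  have hζO : ζ' ∈ intCl O := (intCl O).algebraMap_mem ζ
  have hmiF : algebraMap R Ω mi * (m : Ω) = 1 := by
    have := congrArg (algebraMap R Ω) hmi
    rw [mul_comm]
    simpa using this
  by_contra hzK
  -- for every `i` the Kummer idempotent of `ζ ^ i · z` is `≡ 0`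
  have key : ∀ i, InW (intCl O) w (kummerIdem mi m (ζ' ^ i * z)) := by
    intro i
    set y : Ω := ζ' ^ i * z with hy
    have hyO : y ∈ intCl O := (intCl O).mul_mem ((intCl O).pow_mem hζO i) hzO
    have hyu : y ^ m = u := by
      rw [hy, mul_pow, ← pow_mul, mul_comm i m, pow_mul, hζ'.pow_eq_one, one_pow, one_mul, hzu]
    have hym : InW (intCl O) w (y ^ m - 1) := by
      rw [hyu]
      obtain ⟨t, ht, h⟩ := hu1
      exact ⟨t, le_intCl O ht, h⟩
    rcases kummer_trivial_of_local hinjR hRF hx w hw (intCl O) hAf.chart_le_intCl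
        hAi.chart_le_intCl (hAf.qep_cover hOK hOcl hW0) (hAi.qep_cover hOK hOcl hW0)
        (hAm.qep_cover hOK hOcl hW0) hm hmi hyO hym (hAf.loc_cover hm hloc_f hyu hyO)
        (hAi.loc_cover hm hloc_i hyu hyO) with h | h
    · exact h
    · exfalso
      obtain ⟨t, ht, hyt⟩ := h
      have hyK : y ∈ K :=
        mem_of_congr_one O K hOK hOfrac hOcl W (O.algebraMap_mem w) hW0 hWunit m
          (algebraMap R Ω mi) (O.algebraMap_mem mi) hmiF y (by rw [hyu]; exact huK) t ht
          (by rw [hW, ← hyt]; ring)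
      apply hzK
      have hζi : ζ' ^ i ≠ 0 := pow_ne_zero _ (hζ'.ne_zero hm.ne')
      have : z = (ζ' ^ i)⁻¹ * y := by
        rw [hy, ← mul_assoc, inv_mul_cancel₀ hζi, one_mul]
      rw [this]
      exact K.mul_mem (K.inv_mem (K.pow_mem (hRK ζ) i)) hyK
  have hsum : InW (intCl O) w 1 := by
    rw [← sum_kummerIdem_twist hmi hζ' z]
    exact InW.sum _ _ (fun i _ => key i)
  obtain ⟨t, ht, h1⟩ := hsum
  have htK : t ∈ K := by
    have : t = W⁻¹ := by
      rw [eq_comm, inv_eq_iff_eq_inv, ← one_div, eq_div_iff]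
      · exact h1.symm
      · rintro rfl
        rw [mul_zero] at h1
        exact one_ne_zero h1
    rw [this]
    exact K.inv_mem (hRK w)
  exact hWunit t (hOcl t htK ht) h1.symm

/-- **ALG_ss**, with the local factorisation in the form `s · u = c · h ^ m`. -/
theorem kummer_root_mem'
    (hinjR : Function.Injective (algebraMap R Ω))
    (hRF : ∀ y : Ω, IsIntegral R y → y ∈ Set.range (algebraMap R Ω))
    {x : Ω} (hx : Transcendental R x) [FiniteDimensional (baseField R x) Ω]
    (w : R) (hw : Prime w)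
    (K : Subfield Ω) (O : Subalgebra R Ω)
    (hOK : ∀ a ∈ O, a ∈ K) (hOcl : ∀ y ∈ K, IsIntegral O y → y ∈ O)
    (hWunit : ∀ a ∈ O, algebraMap R Ω w * a ≠ 1)
    (hjac : ∀ a ∈ O, ∃ b ∈ O, (1 + algebraMap R Ω w * a) * b = 1)
    (Af Ai Am : Subalgebra R Ω)
    (hAf : BaseChart K O w {x} Af) (hAi : BaseChart K O w {x⁻¹} Ai)
    (hAm : BaseChart K O w {x, x⁻¹} Am)
    {m : ℕ} (hm : 0 < m) {mi : R} (hmi : (m : R) * mi = 1)
    {ζ : R} (hζ : IsPrimitiveRoot ζ m)
    {u : Ω} (huK : u ∈ K) (hu1 : InW O w (u - 1))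
    (hloc_f : LocFact' O Af w m u) (hloc_i : LocFact' O Ai w m u)
    {z : Ω} (hzu : z ^ m = u) : z ∈ K :=
  kummer_root_mem hinjR hRF hx w hw K O hOK hOcl hWunit Af Ai Am hAf hAi hAm hm hmi hζ huK hu1
    (LocFact.of_locFact' hjac hloc_f) (LocFact.of_locFact' hjac hloc_i) hzu

end Main

end Fermat.Agent.A2.H193
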